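/-
S41 / C11 [NEW] sub-leaf [MACKEY] (helper25).  Mathlib only.

API-independent group theory about `MonoidHom.transfer`:

* `transfer_eq_prod_section` (T0): the transfer computed with an ARBITRARY section of `G → G ⧸ H`;
* `transfer_mackey` (T1): Mackey's double-coset formula for the restriction of a transfer to a
  subgroup `K`, for an arbitrary finite family of double-coset representatives;
* `transfer_two_cosets` (T2): the case `K = H`, `G = H ⊔ H g₀ H` ("res ∘ cores = 1 + [H g₀ H]").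
-/
import Mathlib

set_option autoImplicit false

namespace Fermat.Agent.S41.Mackey25

open MulAction Subgroup Subgroup.leftTransversals
open scoped Pointwise

variable {G : Type*} [Group G] {H : Subgroup G} {A : Type*} [CommGroup A] (ϕ : H →* A)

/-- for a section `s` of `G → G ⧸ H`, the element `s (g • q)⁻¹ * g * s q` lies in `H`. -/
theorem section_mem {s : G ⧸ H → G} (hs : ∀ q, (s q : G ⧸ H) = q) (g : G) (q : G ⧸ H) :
    (s (g • q))⁻¹ * g * s q ∈ H := by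
  rw [mul_assoc, ← QuotientGroup.eq, hs]
  conv_lhs => rw [← hs q]
  rfl

/-- **(T0)** the transfer computed with an arbitrary section. -/
theorem transfer_eq_prod_section [H.FiniteIndex] [inst : Fintype (G ⧸ H)] {s : G ⧸ H → G}
    (hs : ∀ q, (s q : G ⧸ H) = q) (g : G) :
    MonoidHom.transfer ϕ g = ∏ q : G ⧸ H, ϕ ⟨(s (g • q))⁻¹ * g * s q, section_mem hs g q⟩ := by
  classical
  obtain rfl : inst = H.fintypeQuotientOfFiniteIndex := Subsingleton.elim _ _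
  let T : H.LeftTransversal := ⟨Set.range s, isComplement_range_left hs⟩
  rw [MonoidHom.transfer_def ϕ T g]
  unfold Subgroup.leftTransversals.diff
  simp only
  let _ := H.fintypeQuotientOfFiniteIndex
  refine (Fintype.prod_equiv (MulAction.toPerm g) _ _ fun q => ?_).symm
  congr 1
  apply Subtype.ext
  simp only [MulAction.toPerm_apply]
  rw [smul_apply_eq_smul_apply_inv_smul, inv_smul_smul]
  have h1 : ∀ q, ((T.2.leftQuotientEquiv q : G)) = s q :=
    fun q => IsComplement.leftQuotientEquiv_apply hs q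
  rw [h1, h1, smul_eq_mul, mul_assoc]

section Mackey

variable {ι : Type*} (K : Subgroup G) (x : ι → G) (Ki : ι → Subgroup K)

/-- the map `(i, c) ↦ c.out * x i  mod H` from `Σ i, K ⧸ K_i` to `G ⧸ H`. -/
noncomputable def mackeyMap (p : Σ i, K ⧸ Ki i) : G ⧸ H :=
  ((((p.2.out : K) : G) * x p.1 : G) : G ⧸ H)

variable {K x Ki}

theorem out_section_mem (i : ι) (k₀ : K) (c : K ⧸ Ki i) :
    ((k₀ • c).out)⁻¹ * k₀ * c.out ∈ Ki i :=
  section_mem (H := Ki i) (s := fun q => q.out) (fun q => QuotientGroup.out_eq' q) k₀ c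

theorem smul_mackeyMap
    (h1 : ∀ i (y : K), y ∈ Ki i ↔ (x i)⁻¹ * (y : G) * x i ∈ H)
    (i : ι) (k₀ : K) (c : K ⧸ Ki i) :
    (k₀ : G) • (mackeyMap (H := H) K x Ki ⟨i, c⟩) = mackeyMap K x Ki ⟨i, k₀ • c⟩ := by
  unfold mackeyMap
  show (((k₀ : G) * (((c.out : K) : G) * x i) : G) : G ⧸ H) = _
  symm
  rw [QuotientGroup.eq]
  have h := (h1 i _).mp (out_section_mem i k₀ c)
  have e : (↑((k₀ • c).out : K) * x i)⁻¹ * ((k₀ : G) * (((c.out : K) : G) * x i))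
      = (x i)⁻¹ * ((((k₀ • c).out)⁻¹ * k₀ * c.out : K) : G) * x i := by
    simp only [Subgroup.coe_mul, Subgroup.coe_inv]
    group
  rw [e]
  exact h

theorem mackeyMap_injective
    (h1 : ∀ i (y : K), y ∈ Ki i ↔ (x i)⁻¹ * (y : G) * x i ∈ H)
    (hdisj : ∀ i j (k : K), (x j)⁻¹ * (k : G) * x i ∈ H → i = j) :
    Function.Injective (mackeyMap (H := H) K x Ki) := by
  rintro ⟨i, c⟩ ⟨j, c'⟩ h
  unfold mackeyMap at h
  rw [QuotientGroup.eq] at h
  have e : (↑(c.out : K) * x i)⁻¹ * (((c'.out : K) : G) * x j)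
      = (x i)⁻¹ * (((c.out)⁻¹ * c'.out : K) : G) * x j := by
    simp only [Subgroup.coe_mul, Subgroup.coe_inv]
    group
  simp only at h
  rw [e] at h
  obtain rfl : j = i := hdisj j i _ h
  have h' := (h1 j _).mpr h
  have hc : c = c' := by
    rw [← QuotientGroup.out_eq' c, ← QuotientGroup.out_eq' c']
    exact QuotientGroup.eq.mpr h'
  rw [hc]

theorem mackeyMap_surjective
    (h1 : ∀ i (y : K), y ∈ Ki i ↔ (x i)⁻¹ * (y : G) * x i ∈ H)
    (hcov : ∀ g : G, ∃ i, ∃ k : K, (x i)⁻¹ * ((k : G))⁻¹ * g ∈ H) :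
    Function.Surjective (mackeyMap (H := H) K x Ki) := by
  intro q
  obtain ⟨i, k, hk⟩ := hcov q.out
  refine ⟨⟨i, (k : K ⧸ Ki i)⟩, ?_⟩
  unfold mackeyMap
  obtain ⟨y, hy⟩ := QuotientGroup.mk_out_eq_mul (Ki i) k
  rw [← QuotientGroup.out_eq' q]
  rw [QuotientGroup.eq]
  simp only
  rw [hy]
  have hy' := H.inv_mem ((h1 i _).mp y.2)
  have e : (((k * (y : K) : K) : G) * x i)⁻¹ * q.out
      = ((x i)⁻¹ * ((y : K) : G) * x i)⁻¹ * ((x i)⁻¹ * ((k : G))⁻¹ * q.out) := by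
    simp only [Subgroup.coe_mul]
    group
  rw [e]
  exact H.mul_mem hy' hk

/-- **(T1) Mackey's double-coset formula** for the restriction to `K` of the transfer `G → A` of
`ϕ : H → A`: for representatives `x i` of `K \ G / H`, subgroups `K_i = K ∩ x_i H x_i⁻¹` of `K`
and `ϕ_i = ϕ ∘ conj (x_i)⁻¹` on `K_i`. -/
theorem transfer_mackey [Fintype ι] [H.FiniteIndex] [∀ i, (Ki i).FiniteIndex]
    (ϕi : ∀ i, Ki i →* A)
    (h1 : ∀ i (y : K), y ∈ Ki i ↔ (x i)⁻¹ * (y : G) * x i ∈ H)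
    (h2 : ∀ i (y : Ki i), ϕi i y = ϕ ⟨(x i)⁻¹ * ((y : K) : G) * x i, (h1 i y).mp y.2⟩)
    (hcov : ∀ g : G, ∃ i, ∃ k : K, (x i)⁻¹ * ((k : G))⁻¹ * g ∈ H)
    (hdisj : ∀ i j (k : K), (x j)⁻¹ * (k : G) * x i ∈ H → i = j)
    (k₀ : K) :
    MonoidHom.transfer ϕ (k₀ : G) = ∏ i, MonoidHom.transfer (ϕi i) k₀ := by
  classical
  let _ : Fintype (G ⧸ H) := H.fintypeQuotientOfFiniteIndex
  let _ : ∀ i, Fintype (K ⧸ Ki i) := fun i => (Ki i).fintypeQuotientOfFiniteIndex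
  let e : (Σ i, K ⧸ Ki i) ≃ G ⧸ H :=
    Equiv.ofBijective (mackeyMap K x Ki)
      ⟨mackeyMap_injective h1 hdisj, mackeyMap_surjective h1 hcov⟩
  let S : G ⧸ H → G := fun q => (((e.symm q).2.out : K) : G) * x (e.symm q).1
  have hS : ∀ q, (S q : G ⧸ H) = q := fun q => e.apply_symm_apply q
  have hSe : ∀ p, S (e p) = ((p.2.out : K) : G) * x p.1 := fun p => by
    show (((e.symm (e p)).2.out : K) : G) * x (e.symm (e p)).1 = _
    rw [e.symm_apply_apply]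
  rw [transfer_eq_prod_section ϕ hS (k₀ : G), ← e.prod_comp, Fintype.prod_sigma]
  refine Fintype.prod_congr _ _ fun i => ?_
  rw [transfer_eq_prod_section (ϕi i) (s := fun q => q.out) (fun q => QuotientGroup.out_eq' q) k₀]
  refine Fintype.prod_congr _ _ fun c => ?_
  rw [h2]
  congr 1
  apply Subtype.ext
  show (S ((k₀ : G) • e ⟨i, c⟩))⁻¹ * (k₀ : G) * S (e ⟨i, c⟩) = _
  have hsm : (k₀ : G) • e ⟨i, c⟩ = e ⟨i, k₀ • c⟩ := smul_mackeyMap h1 i k₀ c
  rw [hsm, hSe, hSe]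
  simp only [Subgroup.coe_mul, Subgroup.coe_inv]
  group

end Mackey

section TwoCosets

/-- transfer from the full group is the identity. -/
theorem transfer_top_apply {G₁ : Type*} [Group G₁] (ψ : (⊤ : Subgroup G₁) →* A) (g : G₁) :
    MonoidHom.transfer ψ g = ψ ⟨g, Subgroup.mem_top g⟩ := by
  classical
  have : Subsingleton (G₁ ⧸ (⊤ : Subgroup G₁)) := QuotientGroup.subsingleton_quotient_top
  let _ : Fintype (G₁ ⧸ (⊤ : Subgroup G₁)) := (⊤ : Subgroup G₁).fintypeQuotientOfFiniteIndex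
  have hs : ∀ q : G₁ ⧸ (⊤ : Subgroup G₁), (((fun _ => (1 : G₁)) q : G₁) : G₁ ⧸ (⊤ : Subgroup G₁)) = q :=
    fun q => Subsingleton.elim _ _
  rw [transfer_eq_prod_section ψ hs g]
  rw [Fintype.prod_subsingleton _ ((1 : G₁) : G₁ ⧸ (⊤ : Subgroup G₁))]
  congr 1
  apply Subtype.ext
  simp

/-- auxiliary family of subgroups for `transfer_two_cosets`. -/
def twoKi (H₀ : Subgroup H) : Bool → Subgroup H
  | false => ⊤
  | true => H₀

/-- auxiliary family of homs for `transfer_two_cosets`. -/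
def twoPhi (H₀ : Subgroup H) (ϕ₀ : H₀ →* A) : ∀ b, twoKi H₀ b →* A
  | false => ϕ.comp (Subgroup.subtype ⊤)
  | true => ϕ₀

/-- **(T2)** `res ∘ cores = 1 + [H g₀ H]` when `G = H ⊔ H g₀ H`: for `h ∈ H`,
`transfer ϕ h = ϕ h * transfer ϕ₀ h`, where `ϕ₀ = ϕ ∘ conj g₀⁻¹` on `H₀ = H ∩ g₀ H g₀⁻¹`. -/
theorem transfer_two_cosets [H.FiniteIndex] (g₀ : G) (H₀ : Subgroup H) [H₀.FiniteIndex]
    (ϕ₀ : H₀ →* A)
    (h1 : ∀ y : H, y ∈ H₀ ↔ g₀⁻¹ * (y : G) * g₀ ∈ H)
    (h2 : ∀ y : H₀, ϕ₀ y = ϕ ⟨g₀⁻¹ * ((y : H) : G) * g₀, (h1 y).mp y.2⟩)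
    (hcov : ∀ g : G, g ∈ H ∨ ∃ k : H, g₀⁻¹ * ((k : G))⁻¹ * g ∈ H)
    (hg₀ : g₀ ∉ H) (h : H) :
    MonoidHom.transfer ϕ (h : G) = ϕ h * MonoidHom.transfer ϕ₀ h := by
  classical
  let x : Bool → G := fun b => Bool.rec 1 g₀ b
  let Ki : Bool → Subgroup H := twoKi H₀
  let ϕi : ∀ b, ↥(Ki b) →* A := twoPhi ϕ H₀ ϕ₀
  have : ∀ b, (Ki b).FiniteIndex := fun b => by
    cases b
    · show (⊤ : Subgroup H).FiniteIndex
      infer_instance
    · show H₀.FiniteIndex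
      infer_instance
  have h1' : ∀ b (y : H), y ∈ Ki b ↔ (x b)⁻¹ * (y : G) * x b ∈ H := by
    intro b y
    cases b
    · show y ∈ (⊤ : Subgroup H) ↔ (1 : G)⁻¹ * (y : G) * 1 ∈ H
      simp
    · exact h1 y
  have h2' : ∀ b (y : Ki b), ϕi b y = ϕ ⟨(x b)⁻¹ * ((y : H) : G) * x b, (h1' b y).mp y.2⟩ := by
    intro b y
    cases b
    · show ϕ ((y : H)) = ϕ ⟨(1 : G)⁻¹ * ((y : H) : G) * 1, _⟩
      congr 1
      apply Subtype.ext
      simp
    · exact h2 y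
  have hcov' : ∀ g : G, ∃ b, ∃ k : H, (x b)⁻¹ * ((k : G))⁻¹ * g ∈ H := by
    intro g
    rcases hcov g with hg | ⟨k, hk⟩
    · refine ⟨false, ⟨g, hg⟩, ?_⟩
      show (1 : G)⁻¹ * g⁻¹ * g ∈ H
      simp
    · exact ⟨true, k, hk⟩
  have hdisj' : ∀ i j (k : H), (x j)⁻¹ * (k : G) * x i ∈ H → i = j := by
    intro i j k hk
    cases i <;> cases j
    · rfl
    · exfalso
      have hk' : g₀⁻¹ * (k : G) * 1 ∈ H := hk
      rw [mul_one] at hk'
      have := H.mul_mem hk' (H.inv_mem k.2)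
      rw [mul_inv_cancel_right] at this
      exact hg₀ (by simpa using H.inv_mem this)
    · exfalso
      have hk' : (1 : G)⁻¹ * (k : G) * g₀ ∈ H := hk
      rw [inv_one, one_mul] at hk'
      have := H.mul_mem (H.inv_mem k.2) hk'
      rw [inv_mul_cancel_left] at this
      exact hg₀ this
    · rfl
  have key := transfer_mackey ϕ (K := H) (x := x) (Ki := Ki) ϕi h1' h2' hcov' hdisj' h
  rw [key, Fintype.prod_bool]
  rw [mul_comm]
  congr 1
  exact transfer_top_apply (G₁ := H) (ϕ.comp (Subgroup.subtype ⊤)) h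

end TwoCosets

end Fermat.Agent.S41.Mackey25
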